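-- Statement S02: a counterexample to FLT for a prime exponent p ≥ 5 yields a Frey package.
import Fermat.Statements.S02

set_option autoImplicit false
open FreyPackage

namespace Fermat.Agent.S02

/-- Core case: `a`, `b` coprime and `b` even. -/
theorem frey_of_coprime_even (a b c : ℤ) (ha : a ≠ 0) (hb : b ≠ 0) (hc : c ≠ 0) (p : ℕ)
    (pp : p.Prime) (hp5 : 5 ≤ p) (H : a ^ p + b ^ p = c ^ p) (hab : gcd a b = 1)
    (hb2 : (2 : ℤ) ∣ b) : Nonempty FreyPackage := by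
  have hpodd : Odd p := pp.odd_of_ne_two (by omega)
  -- `a` is odd
  have ha2 : ¬ (2 : ℤ) ∣ a := by
    intro h
    have h2 : (2 : ℤ) ∣ gcd a b := dvd_gcd h hb2
    rw [hab] at h2
    exact absurd h2 (by decide)
  have hb2' : ((b : ℤ) : ZMod 2) = 0 := (ZMod.intCast_zmod_eq_zero_iff_dvd b 2).2 hb2
  have hnb2' : (((-b : ℤ)) : ZMod 2) = 0 :=
    (ZMod.intCast_zmod_eq_zero_iff_dvd (-b) 2).2 ((dvd_neg).2 hb2)
  have hmod : a % 4 = 1 ∨ a % 4 = 3 := by
    have h2 : a % 2 = 1 := by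
      rcases Int.emod_two_eq_zero_or_one a with h | h
      · exact absurd (Int.dvd_of_emod_eq_zero h) ha2
      · exact h
    omega
  rcases hmod with h1 | h3
  · -- a ≡ 1 mod 4: negate everything
    refine ⟨⟨-a, -b, -c, neg_ne_zero.2 ha, neg_ne_zero.2 hb, neg_ne_zero.2 hc, p, pp, hp5, ?_, ?_,
      ?_, hnb2'⟩⟩
    · rw [hpodd.neg_pow, hpodd.neg_pow, hpodd.neg_pow, ← H]; ring
    · rw [gcd_neg, neg_gcd]; exact hab
    · have : ((-a : ℤ) : ZMod 4) = ((3 : ℤ) : ZMod 4) := by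
        rw [ZMod.intCast_eq_intCast_iff_dvd_sub]
        have : (4 : ℤ) ∣ 3 - -a := by omega
        exact_mod_cast this
      rw [this]; rfl
  · refine ⟨⟨a, b, c, ha, hb, hc, p, pp, hp5, H, hab, ?_, hb2'⟩⟩
    have : ((a : ℤ) : ZMod 4) = ((3 : ℤ) : ZMod 4) := by
      rw [ZMod.intCast_eq_intCast_iff_dvd_sub]
      have : (4 : ℤ) ∣ 3 - a := by omega
      exact_mod_cast this
    rw [this]; rfl

/-- Coprime case. -/
theorem frey_of_coprime (a b c : ℤ) (ha : a ≠ 0) (hb : b ≠ 0) (hc : c ≠ 0) (p : ℕ)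
    (pp : p.Prime) (hp5 : 5 ≤ p) (H : a ^ p + b ^ p = c ^ p) (hab : gcd a b = 1) :
    Nonempty FreyPackage := by
  have hpodd : Odd p := pp.odd_of_ne_two (by omega)
  have hp0 : 0 < p := by omega
  by_cases hb2 : (2 : ℤ) ∣ b
  · exact frey_of_coprime_even a b c ha hb hc p pp hp5 H hab hb2
  by_cases ha2 : (2 : ℤ) ∣ a
  · refine frey_of_coprime_even b a c hb ha hc p pp hp5 ?_ ?_ ha2
    · rw [add_comm]; exact H
    · rw [gcd_comm]; exact hab
  -- both odd, so `c` is even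
  have hc2 : (2 : ℤ) ∣ c := by
    have hao : Odd a := Int.not_even_iff_odd.1 (fun h => ha2 (even_iff_two_dvd.1 h))
    have hbo : Odd b := Int.not_even_iff_odd.1 (fun h => hb2 (even_iff_two_dvd.1 h))
    have hce : Even (c ^ p) := by
      rw [← H]; exact (hao.pow).add_odd (hbo.pow)
    have : Even c := (Int.even_pow.1 hce).1
    exact even_iff_two_dvd.1 this
  refine frey_of_coprime_even a (-c) (-b) ha (neg_ne_zero.2 hc) (neg_ne_zero.2 hb) p pp hp5 ?_ ?_
    ((dvd_neg).2 hc2)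
  · rw [hpodd.neg_pow, hpodd.neg_pow, ← H]; ring
  · rw [gcd_neg]
    rw [← FreyPackage.gcdab_eq_gcdac hp0 H]; exact hab

theorem result (a b c : ℤ) (ha : a ≠ 0) (hb : b ≠ 0) (hc : c ≠ 0) (p : ℕ) (pp : p.Prime) (hp5 : 5 ≤ p) (H : a ^ p + b ^ p = c ^ p) : Nonempty FreyPackage := by
  have hp0 : p ≠ 0 := by omega
  -- divide out by the gcd
  obtain ⟨a', b', ha', hb', hcop⟩ : ∃ a' b' : ℤ, a = a' * gcd a b ∧ b = b' * gcd a b ∧
      IsCoprime a' b' := by
    have hd : (Int.gcd a b : ℤ) ≠ 0 := by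
      intro h
      have : Int.gcd a b = 0 := by exact_mod_cast h
      exact ha (Int.gcd_eq_zero_iff.1 this).1
    obtain ⟨a', ha'⟩ := Int.gcd_dvd_left a b
    obtain ⟨b', hb'⟩ := Int.gcd_dvd_right a b
    refine ⟨a', b', ?_, ?_, ?_⟩
    · conv_lhs => rw [ha']
      rw [mul_comm]; rfl
    · conv_lhs => rw [hb']
      rw [mul_comm]; rfl
    · obtain ⟨x, y, hxy⟩ : ∃ x y : ℤ, (Int.gcd a b : ℤ) = a * x + b * y :=
        ⟨_, _, Int.gcd_eq_gcd_ab a b⟩
      refine ⟨x, y, ?_⟩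
      have h2 : (Int.gcd a b : ℤ) * (x * a' + y * b') = (Int.gcd a b : ℤ) * 1 := by
        calc (Int.gcd a b : ℤ) * (x * a' + y * b')
            = (↑(Int.gcd a b) * a') * x + (↑(Int.gcd a b) * b') * y := by ring
          _ = a * x + b * y := by rw [← ha', ← hb']
          _ = (Int.gcd a b : ℤ) * 1 := by rw [← hxy, mul_one]
      exact mul_left_cancel₀ hd h2
  set d : ℤ := gcd a b with hd_def
  have hd0 : d ≠ 0 := by
    intro h
    rw [h, mul_zero] at ha'
    exact ha ha'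
  have ha'0 : a' ≠ 0 := by
    rintro rfl
    rw [zero_mul] at ha'
    exact ha ha'
  have hb'0 : b' ≠ 0 := by
    rintro rfl
    rw [zero_mul] at hb'
    exact hb hb'
  -- d ∣ c
  have hdc : d ∣ c := by
    rw [← Int.pow_dvd_pow_iff hp0, ← H]
    apply dvd_add
    · rw [Int.pow_dvd_pow_iff hp0]; exact Dvd.intro_left _ ha'.symm
    · rw [Int.pow_dvd_pow_iff hp0]; exact Dvd.intro_left _ hb'.symm
  obtain ⟨c', hc'⟩ := hdc
  have hc'0 : c' ≠ 0 := by
    rintro rfl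
    rw [mul_zero] at hc'
    exact hc hc'
  have H' : a' ^ p + b' ^ p = c' ^ p := by
    have h3 : d ^ p * (a' ^ p + b' ^ p) = d ^ p * c' ^ p := by
      calc d ^ p * (a' ^ p + b' ^ p) = (a' * d) ^ p + (b' * d) ^ p := by ring
        _ = (d * c') ^ p := by rw [← ha', ← hb', H, hc']
        _ = d ^ p * c' ^ p := by ring
    exact mul_left_cancel₀ (pow_ne_zero p hd0) h3
  have hgcd : gcd a' b' = 1 := by
    have h1 : IsUnit (gcd a' b') := by
      rw [gcd_isUnit_iff]; exact hcop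
    have h2 : normalize (gcd a' b') = gcd a' b' := normalize_gcd a' b'
    rw [← h2]
    exact normalize_eq_one.2 h1
  exact frey_of_coprime a' b' c' ha'0 hb'0 hc'0 p pp hp5 H' hgcd

end Fermat.Agent.S02
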