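-- Statement S05 (row 5): the mod-p Galois representation of the Frey curve is unramified at
-- every prime q with q ≠ 2 and q ≠ p.
-- Proof: top layer (Frey arithmetic, transfer to Legendre models) by helper1445 and helper725;
-- local theorem (kernel of reduction, component additivity at the node) by helper245.
import Fermat.Statements.S05
import Fermat.Agent.S05.helper1445_Top
import Fermat.Agent.S05.helper245_Local

set_option autoImplicit false
open WeierstrassCurve WeierstrassCurve.Affine WeierstrassCurve.Affine.Point
open CuspForm ModularFormClass UpperHalfPlane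
open FreyPackage

namespace Fermat.Agent.S05

theorem result (P : FreyPackage) {q : ℕ} (hq : q.Prime) (hq2 : q ≠ 2) (hqp : q ≠ P.p) : P.GaloisRepUnramifiedAt q := by
  exact Fermat.Agent.S05.helper1445.top
    (fun A W h₁ h₃ h₆ h₄ ha₂ ha₄ h2 hdisc σ hσA hσ n hn hn2 hnv hcase Q hQ =>
      Fermat.Agent.S05.helper245.local_statement A W h₁ h₃ h₆ h₄ ha₂ ha₄ h2 hdisc σ hσA hσ n hn
        hn2 hnv hcase Q hQ) P hq hq2 hqp

end Fermat.Agent.S05
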