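-- Statement S07 (row 7): every weight-2 cusp form of level Γ₀(2) is zero.
-- Proof: Sturm bound for Γ₀(N) from the prelude plus the crude bound [SL₂(ℤ) : Γ₀(2)] ≤ 4.
import Fermat.Statements.S07
import Fermat.Agent.S07.helper67_Index

set_option autoImplicit false
open WeierstrassCurve WeierstrassCurve.Affine WeierstrassCurve.Affine.Point
open CuspForm ModularFormClass UpperHalfPlane
open ModularForm

namespace Fermat.Agent.S07

theorem result (f : CuspForm (CongruenceSubgroup.Gamma0 2) 2) : f = 0 := by
  refine Fermat.Agent.S07.helper67.cuspForm_eq_zero_of_small 2 ?_ f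
  have h := Fermat.Agent.S07.helper67.index_Gamma0_le 2
  have h2 : ((2 : ℤ) * ((CongruenceSubgroup.Gamma0 2).index : ℤ)).toNat ≤ 8 := by
    have : ((2 : ℤ) * ((CongruenceSubgroup.Gamma0 2).index : ℤ)) ≤ 8 := by
      have : ((CongruenceSubgroup.Gamma0 2).index : ℤ) ≤ 4 := by exact_mod_cast h
      linarith
    omega
  omega

end Fermat.Agent.S07
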