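import Fermat.Statements.S08

set_option autoImplicit false
open WeierstrassCurve WeierstrassCurve.Affine WeierstrassCurve.Affine.Point
open CuspForm ModularFormClass UpperHalfPlane
open ModularForm

namespace Fermat.Agent.S08

open scoped MatrixGroups in
theorem result (f : CuspForm (CongruenceSubgroup.Gamma0 1) 2) : f = 0 := by
  have hG : ((CongruenceSubgroup.Gamma0 1 : Subgroup SL(2, ℤ)) : Subgroup (GL (Fin 2) ℝ)) = 𝒮ℒ := by
    have h1 : CongruenceSubgroup.Gamma0 1 = ⊤ := by
      ext A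
      simp [CongruenceSubgroup.Gamma0_mem, Subsingleton.elim (_ : ZMod 1) 0]
    rw [h1]
    exact (MonoidHom.range_eq_map _).symm
  have key : ∀ (Γ : Subgroup (GL (Fin 2) ℝ)), Γ = 𝒮ℒ → ∀ g : CuspForm Γ 2, g = 0 := by
    intro Γ hΓ
    subst hΓ
    intro g
    have hr : Module.rank ℂ (CuspForm 𝒮ℒ 2) = 0 :=
      CuspForm.rank_eq_zero_of_weight_lt_twelve (by norm_num)
    exact rank_zero_iff_forall_zero.mp hr g
  exact key _ hG f

end Fermat.Agent.S08
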