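-- Statement S10 (row 9): the mod-p representation of the Frey curve has no Galois-stable
-- cofixed line when p ∈ {5, 7, 13}.
-- Proof by vacuity: a Frey package carries a coprime solution of a^p + b^p = c^p in nonzero
-- integers, which is impossible for the regular primes p = 5, 7, 13:
--   Case I  (p ∤ abc): Sophie Germain / Legendre          (Lib.helper250_SophieGermain)
--   Case II (p ∣ abc): Kummer descent in the PID ℤ[ζ_p]   (Lib.helper11_CaseII)
--   PID: Mathlib (5), Lib.helper908_PID7 (7), S10.helper550_PID13 (13)
--   Kummer's lemma for 5, 7, 13                           (Lib.helper430_KummerSmall)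
import Fermat.Statements.S10
import Fermat.Agent.S10.helper10_Assembly
import Fermat.Agent.Lib.helper11_CaseII
import Fermat.Agent.Lib.helper430_KummerSmall
import Fermat.Agent.S10.helper550_PID13

set_option autoImplicit false
open WeierstrassCurve WeierstrassCurve.Affine WeierstrassCurve.Affine.Point
open CuspForm ModularFormClass UpperHalfPlane
open FreyPackage

namespace Fermat.Agent.S10

set_option backward.isDefEq.respectTransparency false in
theorem result (P : FreyPackage) (hp : P.p = 5 ∨ P.p = 7 ∨ P.p = 13) : ¬ HasGaloisStableCofixedLine (K := AlgebraicClosure ℚ) ℚ P.freyCurve P.p := by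
  have h5 : Fact (Nat.Prime 5) := ⟨by norm_num⟩
  have h7 : Fact (Nat.Prime 7) := ⟨by norm_num⟩
  have h13 : Fact (Nat.Prime 13) := ⟨by norm_num⟩
  refine Fermat.Agent.S10.helper10.result_of_parts ?_ ?_ ?_
    (Fermat.Agent.S10.helper550.thirteen_pid (CyclotomicField 13 ℚ))
    (fun u n h => Fermat.Agent.Lib.helper430.kummer_five u n h)
    (fun u n h => Fermat.Agent.Lib.helper430.kummer_seven u n h)
    (fun u n h => Fermat.Agent.Lib.helper430.kummer_thirteen u n h) P hp
  · intro K _ _ _ _ hK
    exact Fermat.Agent.Lib.helper11.caseII (p := 5) (K := K) (by norm_num) hK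
  · intro K _ _ _ _ hK
    exact Fermat.Agent.Lib.helper11.caseII (p := 7) (K := K) (by norm_num) hK
  · intro K _ _ _ _ hK
    exact Fermat.Agent.Lib.helper11.caseII (p := 13) (K := K) (by norm_num) hK

end Fermat.Agent.S10
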