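import Fermat.Statements.S11
import Fermat.Agent.Lib.helper250_SophieGermain
import Fermat.Agent.Lib.helper851_CaseII
import Fermat.Agent.Lib.helper430_KummerSmall
import Fermat.Agent.S11.helper489_PID11

set_option autoImplicit false
open WeierstrassCurve WeierstrassCurve.Affine WeierstrassCurve.Affine.Point
open CuspForm ModularFormClass UpperHalfPlane
open FreyPackage

namespace Fermat.Agent.S11

set_option backward.isDefEq.respectTransparency false in
theorem result (P : FreyPackage) (hp : P.p = 11) : ¬ HasGaloisStableCofixedLine (K := AlgebraicClosure ℚ) ℚ P.freyCurve P.p := by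
  exfalso
  have h := P.hFLT
  rw [hp] at h
  have hcop : IsCoprime P.a P.b := by
    rw [Int.isCoprime_iff_gcd_eq_one]
    have := P.hgcdab
    rw [← Int.coe_gcd] at this
    exact_mod_cast this
  have hdvd : (11 : ℤ) ∣ P.a * P.b * P.c :=
    Fermat.Agent.Lib.helper250.caseI_eleven P.a P.b P.c hcop h
  haveI : Fact (Nat.Prime 11) := ⟨by norm_num⟩
  haveI : IsPrincipalIdealRing (NumberField.RingOfIntegers (CyclotomicField 11 ℚ)) :=
    Fermat.Agent.S11.helper489.eleven_pid (K := CyclotomicField 11 ℚ)
  exact Fermat.Agent.Lib.helper851.caseII (p := 11) (K := CyclotomicField 11 ℚ) (by norm_num)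
    (fun u n hu => Fermat.Agent.Lib.helper430.kummer_eleven u n (by exact_mod_cast hu))
    P.a P.b P.c hcop P.habc0 (by exact_mod_cast hdvd) h

end Fermat.Agent.S11
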