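-- Statement S13 (row 12): if the mod-p representation of the Frey curve is reducible, it has a
-- Galois-stable cofixed line.
-- Assembly (architect helper613) of the skeleton `helper613_Skeleton` (linear algebra by captain
-- helper13) with the ingredient theorems of the S13 team.
import Fermat.Statements.S13
import Fermat.Agent.S13.helper613_Skeleton
import Fermat.Agent.S05
import Fermat.Agent.Lib.helper822_TorsionFinite
import Fermat.Agent.S13.helper4462_OpenStab
import Fermat.Agent.S13.helper613_TorsionCount
import Fermat.Agent.S13.helper613_DivPoly
import Fermat.Agent.S13.helper965_UnipTwo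
import Fermat.Agent.S13.helper4507_NoFixed
import Fermat.Agent.Lib.helper2299_MinkowskiInertia

set_option autoImplicit false
open WeierstrassCurve WeierstrassCurve.Affine WeierstrassCurve.Affine.Point
open CuspForm ModularFormClass UpperHalfPlane
open FreyPackage

namespace Fermat.Agent.S13

theorem result (P : FreyPackage) (hred : ¬ GaloisRepIsIrreducible (K := AlgebraicClosure ℚ) ℚ P.freyCurve P.p) : HasGaloisStableCofixedLine (K := AlgebraicClosure ℚ) ℚ P.freyCurve P.p := by
  classical
  exact Fermat.Agent.S13.helper613.cofixedLine_of_weakIngredients P
    { nontrivial := Fermat.Agent.S13.helper613.frey_nontrivial P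
      finite := Fermat.Agent.Lib.helper822.finite_torsionBy _ P.p P.pp.ne_zero
      card_le := Fermat.Agent.S13.helper613.frey_card_le P
      unram_odd := fun q hq hq2 hqp => Fermat.Agent.S05.result P hq hq2 hqp
      unip_two := Fermat.Agent.S13.helper965.unip_two P
      no_fixed := Fermat.Agent.S13.helper4507.no_fixed P
      at_p := Fermat.Agent.S13.helper613.frey_at_p P
      minkowski := Fermat.Agent.Lib.helper2299.minkowski_inertia
      open_stab := Fermat.Agent.S13.helper4462.open_stab P } hred

end Fermat.Agent.S13
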