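-- Statement S14: the Ext-vanishing property `ExtVanishingCts p` for every prime `p ≥ 3`.
-- Assembly of the S14 project ("Thaine route"): reduction (Packages R, K), Thaine relation (T, T'),
-- local computation (L), unit part (U), class part (C), density comparison, and the analytic
-- Weber core W0 (`helper914.stmt_PartialZetaDiff`).
import Fermat.Statements.S14
import Fermat.Agent.S14.helper14_Assembly3
import Fermat.Agent.S14.helper914_PZStmt

set_option autoImplicit false
open ExtCitation

namespace Fermat.Agent.S14

theorem result {p : ℕ} [Fact p.Prime] (h3 : 3 ≤ p) :
    ExtCitation.ExtVanishingCts p :=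
  Fermat.Agent.S14.helper14.extVanishingCts_of_partialZetaDiff h3
    Fermat.Agent.S14.helper914.stmt_PartialZetaDiff

end Fermat.Agent.S14
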