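-- Statement S17 (row 16): Mordell–Weil for `J₀(N)`, the group of `ℚ`-rational points of `JZero N`
-- is finitely generated.  The statement below is byte-identical to the frozen statement
-- ModularCurve.JZero.FermatFrozen.S17 (Fermat/Statements/S17.lean).
--
-- Proof (Pluecker-height track, Spec `helper3197_PlueckerSpec`, assembly
-- `helper3197_PlueckerAsm.fg_of_leaves`, instantiated at the modular curve in
-- `helper4656_Inst`): Riemann (L1), rational descent (L2), sharp Siegel (L4), the multiplication
-- law (L5), the naive height `Hinf` (L6), the moving lemma (L8), weak Mordell–Weil at `2` (L9)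
-- and the cube inequality for Pluecker heights (L7, here through the one-point law of
-- `helper2273_CubeSpec`).
import Fermat.Statements.S17
import Fermat.Agent.S17.helper4656_Inst
import Fermat.Agent.S17.helper2273_CubeSpec

set_option autoImplicit false
open ModularCurve AlgebraicCurve
open ModularCurve ModularCurve.JZero

namespace Fermat.Agent.S17

theorem result (N : ℕ) [NeZero N] (hN : N.Prime) (hN5 : 5 ≤ N) :
    AddGroup.FG ↥(FixedPoints.addSubgroup ((AlgebraicClosure ℚ) ≃ₐ[ℚ] (AlgebraicClosure ℚ)) (JZero N)) :=
  have := helper4656.finiteDimensional_jQb N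
  helper4656.fg_JZero_of_cube N
    (helper2273.cubeSpec (helper4656.F0 N) (helper4656.Pinf N) (helper4656.jQb N)
      (helper4656.transcendental_jQb N) (helper4656.isRatPlace_Pinf N)
      (helper4656.riemannSpec_X0 N) (helper4656.ratDescSpec_X0 N) (helper4656.linDisjSpec_X0 N))

end Fermat.Agent.S17
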