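-- S21 (Eichler–Shimura for Γ₀(N)); captain assembly by helper21.
-- Closure: S21 pieces A/B/C (helper921, helper21, helper376, helper81, helper2438), the parabolic
-- cohomology bound (helper681) with the coset counts (helper804, helper227), and the S20
-- dimension formula through the Track B leaves of the S20 team (helper1040 Spec).
import Fermat.Statements.S21
import Fermat.Agent.S21.helper21_TrackB

set_option autoImplicit false
open ModularCurve

namespace Fermat.Agent.S21

theorem result (N : ℕ) [NeZero N] :
    Function.Injective (ModularCurve.periodHomPair N)
      ∧ LinearMap.range (ModularCurve.periodHomPair N)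
          = ModularCurve.Period.parabolicHoms ℂ (CongruenceSubgroup.Gamma0 N) ℂ :=
  Fermat.Agent.S21.helper21.s21_trackB N

end Fermat.Agent.S21
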