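import Fermat.Statements.S20
import Fermat.Agent.S20.helper1040_Assembly
import Fermat.Agent.S20.helper1235_StmtFree1040
import Fermat.Agent.S20.helper116_Sep
import Fermat.Agent.S20.helper1559_Liouville
import Fermat.Agent.S20.helper2507_Basic
import Fermat.Agent.S20.helper5021_Ell
import Fermat.Agent.S20.helper1177_CuspFact
import Fermat.Agent.S20.helper4608_Dual
import Fermat.Agent.S20.helper2600_Goals

set_option autoImplicit false
open CuspForm

namespace Fermat.Agent.S20

theorem result (N : ℕ) [NeZero N] :
    (Module.finrank ℂ (CuspForm (CongruenceSubgroup.Gamma0 N) 2) : ℚ) = ModularCurve.genusFormula N := by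
  classical
  let _ : Fintype (Matrix.SpecialLinearGroup (Fin 2) ℤ ⧸ CongruenceSubgroup.Gamma0 N) :=
    Fintype.ofFinite _
  exact Fermat.Agent.S20.helper1040.result_of_leaves N
    (Fermat.Agent.S20.helper1235.stmt_Free N)
    (Fermat.Agent.S20.helper116.stmt_Sep N)
    (Fermat.Agent.S20.helper1559.stmt_liouville _)
    (Fermat.Agent.S20.helper2507.stmt_basic _ (by
      rw [CongruenceSubgroup.Gamma0_mem]
      simp))
    (Fermat.Agent.S20.helper5021.stmt_ell _)
    (Fermat.Agent.S20.helper1177.stmt_CuspFact _)
    (Fermat.Agent.S20.helper4608.stmt_dual _)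
    (Fermat.Agent.S20.helper2600.stmt_Index N) (Fermat.Agent.S20.helper2600.stmt_EllTwo N)
    (Fermat.Agent.S20.helper2600.stmt_EllThree N) (Fermat.Agent.S20.helper2600.stmt_CuspNum N)

end Fermat.Agent.S20
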