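-- Statement S27: the number of `ℓ^k`-torsion points of `Pic⁰` of a curve over an algebraically
-- closed field of characteristic zero is `ℓ^(2gk)`.
-- Proof: complex case by the analytic route (`helper6247_Assembly.asm_Complex`), then the
-- Lefschetz transfer (`helper70.transfer_of_desc` with `helper2848.stmt_DESC`).
import Fermat.Statements.S27
import Fermat.Agent.S27.helper6247_Assembly
import Fermat.Agent.S27.helper70_LefB
import Fermat.Agent.S27.helper2848_Desc

set_option autoImplicit false
set_option autoImplicit false
open AlgebraicCurve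
open AlgebraicCurve AlgebraicCurve.Pic0

namespace Fermat.Agent.S27

theorem result
    (K F : Type*) [Field K] [Field F] [Algebra K F] [IsAlgClosed K] [CharZero K]
    [IsCurveOver K F] [Algebra.EssFiniteType K F]
    (ℓ : ℕ) [Fact ℓ.Prime] (k : ℕ) :
    Nat.card (Pic0.torsion K F (ℓ ^ k)) = ℓ ^ (2 * genusFF K F * k) :=
  Fermat.Agent.S27.helper6247.s27_of_transfer
    (Fermat.Agent.S27.helper70.transfer_of_desc Fermat.Agent.S27.helper2848.stmt_DESC) K F ℓ k

end Fermat.Agent.S27
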