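-- S16: the quotient of the lattice Hecke algebra by the Eisenstein ideal has cardinality
-- `eisensteinNumerator p`.  Final assembly (helper312) of the S16 team's leaves:
--   * lower bound        : helper1461.stmt_LB (Shimura class, period equivariance, S21, S23)
--   * duality            : helper9562.stmt_Dual
--   * Eisenstein series  : helper8794.eisP
--   * Hecke commutator   : helper4369.dvd_of_congruent_const
--   * one-trace bound    : helper7249.onetrace_of_eis
--   * 2-adic norm (T8)   : helper4426.no_unit_mod_eight_rat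
--   * small primes       : helper969.frozen_of_five_le
import Fermat.Statements.S16
import Fermat.Agent.S16.helper312_Wire
import Fermat.Agent.S16.helper1461_LBFinal
import Fermat.Agent.S16.helper4426_TwoAdicNorm
import Fermat.Agent.S16.helper969_SmallPrimes

set_option autoImplicit false
open ModularCurve CuspForm
open ModularCurve

namespace Fermat.Agent.S16

/-- The 2-adic leaf of the Spec, from helper4426's unconditional norm argument. -/
theorem stmt_T8_final (p : ℕ) [Fact p.Prime] : helper312.Stmt_T8 p := by
  intro hp8 G h0 hk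
  refine helper4426.no_unit_mod_eight_rat p (by omega) G h0 ?_
  intro k hk1
  obtain ⟨a, b, hb, hab⟩ := hk k hk1
  have hbn : Odd b.natAbs := Int.natAbs_odd.mpr hb
  rcases Int.natAbs_eq b with hb' | hb'
  · refine ⟨a, b.natAbs, hbn, ?_⟩
    have hc : ((b.natAbs : ℕ) : ℂ) = (b : ℂ) := by
      have h2 : (b.natAbs : ℤ) = b := by omega
      rw [← Int.cast_natCast (R := ℂ) b.natAbs, h2]
    rw [hc]
    rw [show (8 : ℂ) * ((a : ℂ) / (b : ℂ)) = 8 * (a : ℂ) / (b : ℂ) by ring]
    exact hab
  · refine ⟨-a, b.natAbs, hbn, ?_⟩
    have hc : ((b.natAbs : ℕ) : ℂ) = -(b : ℂ) := by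
      have h2 : (b.natAbs : ℤ) = -b := by omega
      rw [← Int.cast_natCast (R := ℂ) b.natAbs, h2, Int.cast_neg]
    rw [hc]
    push_cast
    rw [show (8 : ℂ) * (-(a : ℂ) / -(b : ℂ)) = 8 * (a : ℂ) / (b : ℂ) by
      rw [neg_div_neg_eq]; ring]
    exact hab

theorem result
    (p : ℕ) [Fact p.Prime] :
    Nat.card (↥(heckeLatticeAlgebra p ∅) ⧸
        Ideal.map ((latticeRestrictHom p ∅).toRingHom.comp (heckeEvalForms p 2))
          (eisensteinIdeal p)) =
      eisensteinNumerator p :=
  helper969.frozen_of_five_le
    (fun q _ h5 => helper312.result_of_two q h5 (helper1461.stmt_LB q) (stmt_T8_final q)) p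

end Fermat.Agent.S16
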