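-- Statement S22: the Hecke algebra of `S_k(Γ₀(N))` is a finite `ℤ`-module.
-- Route: Eichler integrals / Eichler–Shimura cocycle lattice (helper262 interface),
-- Bol's identity (helper322), separation (helper1266), Eichler series (helper1222),
-- instance fields (helper262), trivial weights and glue (helper283).
import Fermat.Statements.S22
import Fermat.Agent.S22.helper283_Trivial
import Fermat.Agent.S22.helper262_Instance
import Fermat.Agent.S22.helper1266_Sep

set_option autoImplicit false
open CuspForm

namespace Fermat.Agent.S22

/-- The Eichler-integral data in weight `w + 2` on `Γ₀(N)`. -/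
noncomputable def eichlerDataInst (N : ℕ) [NeZero N] (w : ℕ) :
    Fermat.Agent.S22.helper262.EichlerData N ((w : ℤ) + 2) w where
  E := Fermat.Agent.S22.helper262.eichlerLin N ((w : ℤ) + 2) w
  poly := fun f γ hγ => Fermat.Agent.S22.helper262.eichlerFun_poly rfl f γ hγ
  sep := fun f hinv =>
    Fermat.Agent.S22.helper1266.sep_core rfl f (Fermat.Agent.S22.helper262.eichlerFun w f)
      (Fermat.Agent.S22.helper262.mdiff_eichlerFun w f)
      (Fermat.Agent.S22.helper262.iterate_D_eichlerFun w f) hinv
  heckeT := fun hp hpN f => Fermat.Agent.S22.helper262.eichlerFun_heckeT rfl hp hpN f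
  heckeU := fun hp hpN f => Fermat.Agent.S22.helper262.eichlerFun_heckeU hp hpN f

theorem result (N : ℕ) [NeZero N] (k : ℤ) (S : Set ℕ) :
    Module.Finite ℤ (CuspForm.heckeAlgebra N k S) := by
  exact Fermat.Agent.S22.helper283.finite_heckeAlgebra_of_eichlerData
    (fun w => ⟨eichlerDataInst N w⟩) k S

end Fermat.Agent.S22
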