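-- Statement S25 (row 24): the Jacobian of a proper smooth integral curve with a rational point
-- over an algebraically closed field. Final assembly of the team library under Fermat/Agent/S25/
-- (assembly: helper1705; the cited theorems carry their authors' seat names).
import Fermat.Statements.S25
import Fermat.Agent.S25.helper1705_Spec3
import Fermat.Agent.S25.helper7579_GlueRepWrap
import Fermat.Agent.S25.helper8470_LRGen
import Fermat.Agent.S25.helper6523_AffRed
import Fermat.Agent.S25.helper8915_CutLocal
import Fermat.Agent.S25.helper8183_GC
import Fermat.Agent.S25.helper233_LGAssembly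
import Fermat.Agent.S25.helper175_Descent
import Fermat.Agent.S25.helper505_ChiRoot
import Fermat.Agent.S25.helper985_FAEZBounded
import Fermat.Agent.S25.helper7727_AlgLift
import Fermat.Agent.S25.helper2952_LocIso
import Fermat.Agent.S25.helper7755_TwoChartFinal
import Fermat.Agent.S25.helper6550_ValUniq
import Fermat.Agent.S25.helper3151_GlueObjWrap
import Fermat.Agent.S25.helper263_StmtExistsSheaf
import Fermat.Agent.S25.helper8573_LCAssembly
import Fermat.Agent.S25.helper83_CoverAsm
import Fermat.Agent.S25.helper2734_PeelStmt
import Fermat.Agent.S25.helper69_ChartOf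

set_option autoImplicit false
set_option autoImplicit false
universe u
open CategoryTheory CategoryTheory.Limits AlgebraicGeometry AlgebraicGeometry.RelPicard NeronModelInfra
  GoodReductionJacobian
open AlgebraicGeometry AlgebraicGeometry.RelPicard

namespace Fermat.Agent.S25

theorem result
    (k : Type u) [Field k] [IsAlgClosed k] {C : Scheme.{u}} (c : C ⟶ Spec (CommRingCat.of k))
    [IsProper c] [SmoothOfRelativeDimension 1 c] [IsIntegral C]
    (ε : SchemeHomOver (𝟙 (Spec (CommRingCat.of k))) c) :
    ∃ D : RelativePic0Designation k c,
      Nonempty (RepresentsRelSubPic c ε (algEquivZeroCut c ε) D) ∧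
        Smooth D.toBase ∧ IsProper D.toBase ∧ GeometricallyConnected D.toBase := by
  -- the two-chart atlas, the dictionary, and the algebraic roots
  have hChart : helper1705.Stmt_Chart.{u} := helper7755.stmt_Chart
  have hDict : helper1705.Stmt_Dict.{u} := helper263.stmt_Dict
  have hAlgBoundedFT : helper985.Stmt_AlgBoundedFT.{u} := helper2734.stmt_AlgBoundedFT
  have hAlgValExist : helper985.Stmt_AlgValExistAC.{u} := helper2734.stmt_AlgValExistAC
  have hFAEZ : helper1705.Stmt_FAEZ.{u} := helper505.stmt_FAEZ_of_boundedFT hAlgBoundedFT
  -- the algebraic chart family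
  have hChartOfAC : helper8573.Stmt_ChartOfAC.{u} := helper69.stmt_ChartOfAC
  have hAlgCharts : helper1705.Stmt_AlgCharts.{u} :=
    helper8573.stmt_AlgCharts_of hChartOfAC helper83.stmt_CoverAC
  -- representability
  have hRep : helper1705.Stmt_Rep.{u} :=
    helper1705.stmt_Rep_of (helper7579.stmt_GlueRep_of_LRGen helper8470.stmt_LRGen)
      helper6523.stmt_AffRed helper2952.stmt_LocIso helper3151.stmt_GlueObj
      helper8915.stmt_CutLocal (helper1705.stmt_ChartsAff_of hChart hDict hFAEZ hAlgCharts)
  -- smooth, separated, universally closed, geometrically connected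
  have hS25 : helper1705.Stmt_S25.{u} :=
    helper233.stmt_S25_of_frozen hRep
      (helper175.stmt_LiftSqZero_of hChart hDict helper7727.stmt_AlgLiftSqZero)
      (helper175.stmt_ValUniq_of hChart hDict helper6550.stmt_AlgValUniq)
      (helper175.stmt_Bounded_of hChart hDict hFAEZ
        (helper985.stmt_AlgBounded_of_FT hAlgBoundedFT))
      (helper175.stmt_ValExistAC_of hChart hDict hFAEZ hAlgValExist)
      helper8183.stmt_GC
  exact hS25 k c ε

end Fermat.Agent.S25
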