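-- Statement S26 (row 25): an abelian variety of dimension `g` over an algebraically closed field
-- has exactly `n ^ (2 * g)` points of order dividing `n`, for `n` invertible in the field.
-- Final assembly of the team library under Fermat/Agent/S26/ (the cited theorems carry their
-- authors' seat names); the Jacobian of a curve enters through the statement S25.
import Fermat.Statements.S26
import Fermat.Agent.S25
import Fermat.Agent.S26.helper154_Final
import Fermat.Agent.S26.helper3190_Frame
import Fermat.Agent.S26.helper1463_Compact

set_option autoImplicit false
set_option autoImplicit false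
open CategoryTheory CategoryTheory.Limits AlgebraicGeometry NeronModelInfra GoodReductionJacobian
universe u
open GoodReductionJacobian GoodReductionJacobian.RelativeGroupLaw

namespace Fermat.Agent.S26

theorem result
    (K : Type u) [Field K] [IsAlgClosed K] {A : Scheme.{u}} (f : A ⟶ Spec (CommRingCat.of K))
    (L : RelativeGroupLaw K f) (hc : L.IsCommutative) (hA : AbelianSchemePropertyBundle K f)
    (g : ℕ) [SmoothOfRelativeDimension g f] (n : ℕ) (hn : (n : K) ≠ 0) :
    Nat.card {x : SchemeHomOver (𝟙 (Spec (CommRingCat.of K))) f //
        L.IsTorsionPoint (𝟙 (Spec (CommRingCat.of K))) n x} = n ^ (2 * g) := by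
  -- the frozen statement S25 (the Jacobian of a curve)
  have hS25 : Fermat.Agent.S25.helper1705.Stmt_S25.{u} :=
    fun k _ _ _ c _ _ _ ε => Fermat.Agent.S25.result k c ε
  -- smooth compactification of an affine curve in a proper scheme
  have hCompact : helper3190.Stmt_Compact.{u} :=
    fun _ _ _ _ _ a _ j _ _ _ _ => helper1463.exists_proper_smooth_curve a j
  -- the frame of `g` curves through the origin
  have hFrame : helper154.Stmt_FramePos.{u} := helper3190.stmt_FramePos hCompact
  exact helper154.stmt_S26_of_S25_of_frame hS25 hFrame K f L hc hA g n hn

end Fermat.Agent.S26
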