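-- Statement S29 (row 28): the residual Galois representation attached to a normalised weight-2
-- eigenform on Γ₀(N).  The statement below is byte-identical to the frozen statement
-- CuspForm.IsNormalizedEigenform.FermatFrozen.S29 (Fermat/Statements/S29.lean).
import Fermat.Statements.S29
import Fermat.Agent.S29.helper5782_Final
import Fermat.Agent.S18.helper789_LineInst

set_option autoImplicit false
open CuspForm CuspForm.IsNormalizedEigenform

namespace Fermat.Agent.S29

theorem result
    {N : ℕ} {g : CuspForm (CongruenceSubgroup.Gamma0 N) 2} (hg : g.IsNormalizedEigenform)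
    {p : ℕ} (hp : p.Prime) {k : Type} [Field k] [CharP k p]
    (φ : integralClosure ℤ ℂ →+* k) :
    ∃ ρ : ResidualGaloisRep k, ρ.IsAttachedTo g φ ∧
      ∀ ℓ : ℕ, ℓ.Prime → ¬ ℓ ∣ N * p → ρ.IsUnramifiedAt ℓ :=
  Fermat.Agent.S29.helper5782.result_of_kf0All
    (fun N _ ℓ hℓ hℓN =>
      Fermat.Agent.S18.helper2118.kf0_of_kfr Fermat.Agent.S18.helper789.stmt_KFr_two
        Fermat.Agent.S18.helper789.stmt_KFr_three N ℓ hℓ hℓN)
    hg hp φ

end Fermat.Agent.S29
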