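-- Statement S33 (row 32): ordinarity of the Hecke Galois representation at `p ∥ N`.
-- Assembly: helper2784 (Spec / NoFixJ / LocalJ / Final / Root3), helper2055 (CECH, OrderJ),
-- helper1085 (GeomSpec), helper5454 (FAMILY-ASM), helper5683 (FormTriv), helper33 (Route T:
-- seeds on the j-charts from the S35 node package on the t₂-chart).
import Fermat.Statements.S33
import Fermat.Agent.S33.helper2784_Root3
import Fermat.Agent.S33.helper5454_FamilyFinal
import Fermat.Agent.S33.helper33_NodesT2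

set_option autoImplicit false
variable {p : ℕ} {N : ℕ} [NeZero N] {S : Finset ℕ}
  {𝒪 : Type} [CommRing 𝒪] [IsDomain 𝒪] [IsDiscreteValuationRing 𝒪]
  [IsAdicComplete (IsLocalRing.maximalIdeal 𝒪) 𝒪]
  {θ : CuspForm.heckeAlgebra N 2 (↑S : Set ℕ) →+* IsLocalRing.ResidueField 𝒪}
  {T : Type} [CommRing T] [IsLocalRing T] [IsNoetherianRing T]
  [IsAdicComplete (IsLocalRing.maximalIdeal T) T] [Algebra 𝒪 T] [IsLocalHom (algebraMap 𝒪 T)]
  [Module.Finite 𝒪 T] [Module.Free 𝒪 T]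
open CuspForm CuspForm.HeckeGaloisRepDatum

namespace Fermat.Agent.S33

theorem result
    [Finite (IsLocalRing.ResidueField 𝒪)] [CharZero 𝒪]
    (hp : p.Prime) (hp2 : p ≠ 2) (hp𝒪 : (p : 𝒪) ∈ IsLocalRing.maximalIdeal 𝒪) (hN : p ∣ N ∧ ¬ p ^ 2 ∣ N)
    (hNS : ∀ q : ℕ, q.Prime → q ∣ N → q ∈ S)
    (H : CuspForm.HeckeGaloisRepDatum N (↑S : Set ℕ) 𝒪 θ T)
    (hres : (GaloisRepAdic.ofResidualGaloisRep H.ρ.residual).IsOrdinaryAt p) :
    H.ρ.IsOrdinaryAt p := by
  haveI : NeZero p := ⟨hp.ne_zero⟩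
  exact Fermat.Agent.S33.helper2784.result_of_family hp hp2 hp𝒪 hN hNS H hres
    (fun M _ h h2 =>
      haveI : NeZero (p * M) := ⟨mul_ne_zero hp.ne_zero (NeZero.ne M)⟩
      Fermat.Agent.S33.helper5454.stmt_family h hp
        (Fermat.Agent.S33.helper33.stmt_SeedsJ_T h hp h2))

end Fermat.Agent.S33
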