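-- S41 (level raising: a mod-p congruent eigenform new at q'); captain assembly by helper123.
-- Closure: helper123_Spec / helper123_Wire / helper123_L4 (reduction to the leaves), witness prime
-- (helper560), boundary (helper1763), congruence subgroup property of Gamma0(N)[1/q]
-- (helper389, helper5755, helper674), level-raising algebra and endgame (helper5472, helper262),
-- degeneracy maps (helper2138), cusps and symbols (helper8689, helper1763), the two Ihara halves
-- (helper7223), the crossing map Theta (helper6553, helper9161, helper6493, helper616, helper1144),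
-- its Hecke and degeneracy compatibilities (helper3777, helper996).
import Fermat.Statements.S41
import Fermat.Agent.S41.helper123_L4
import Fermat.Agent.S41.helper6553_CrossingRel
import Fermat.Agent.S41.helper996_ThetaDeg

set_option autoImplicit false
open WeierstrassCurve WeierstrassCurve.Affine WeierstrassCurve.Affine.Point
open scoped CongruenceSubgroup
open WeierstrassCurve

namespace Fermat.Agent.S41

theorem result
    (E : WeierstrassCurve ℚ) [E.IsElliptic] {W : WeierstrassCurve ℤ} (hW : W.IsIntegralModelOf E)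
    {p N q' : ℕ} (hp : p.Prime) (hp2 : p ≠ 2) (hN : 0 < N) (hq' : q'.Prime) (hq'N : ¬ q' ∣ N) (hq'p : q' ≠ p)
    (hirr : GaloisRepIsIrreducible (K := AlgebraicClosure ℚ) ℚ E p)
    (f : CuspForm (CongruenceSubgroup.Gamma0 N) 2) (𝔪 : Ideal (integralClosure ℤ ℂ))
    (hf : f.IsNormalizedEigenform) (hmax : 𝔪.IsMaximal) (hpm : (p : integralClosure ℤ ℂ) ∈ 𝔪)
    (hcong : ∀ ℓ : ℕ, ℓ.Prime → W.IsGoodPrimeFor ℓ → ¬ ℓ ∣ N → ℓ ≠ p →
      ∃ a : integralClosure ℤ ℂ, (a : ℂ) = ModularFormClass.qCoeff f ℓ ∧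
        a - ((W.apOfModel ℓ : ℤ) : integralClosure ℤ ℂ) ∈ 𝔪)
    (hLR : ∃ a : integralClosure ℤ ℂ, (a : ℂ) = ModularFormClass.qCoeff f q' ∧
      a ^ 2 - ((q' : integralClosure ℤ ℂ) + 1) ^ 2 ∈ 𝔪) :
    ∃ (g : CuspForm (CongruenceSubgroup.Gamma0 (N * q')) 2) (𝔪' : Ideal (integralClosure ℤ ℂ)),
      g.IsNormalizedEigenform ∧ 𝔪'.IsMaximal ∧ (p : integralClosure ℤ ℂ) ∈ 𝔪' ∧
      (∀ ℓ : ℕ, ℓ.Prime → W.IsGoodPrimeFor ℓ → ¬ ℓ ∣ N * q' → ℓ ≠ p →
        ∃ a : integralClosure ℤ ℂ, (a : ℂ) = ModularFormClass.qCoeff g ℓ ∧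
          a - ((W.apOfModel ℓ : ℤ) : integralClosure ℤ ℂ) ∈ 𝔪') ∧
      g.IsNewAt q' := by
  exact Fermat.Agent.S41.helper123.S41_of_ihara
    (Fermat.Agent.S41.helper123.stmt_Ihara_of_theta
      (fun M _ a b c => Fermat.Agent.S41.helper6553.Theta_add (CongruenceSubgroup.Gamma0 M) a b c)
      (fun N q _ hqN _ a b =>
        ⟨Fermat.Agent.S41.helper996.theta_cores N q hqN a b,
          Fermat.Agent.S41.helper996.theta_coresc N q hqN a b⟩))
    E hW hp hp2 hN hq' hq'N hq'p hirr f 𝔪 hf hmax hpm hcong hLR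

end Fermat.Agent.S41
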