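import Fermat.Statements.S49
import Fermat.Agent.S49.helper529_Lift
import Fermat.Agent.S49.helper529_Hecke

set_option autoImplicit false
open CuspForm EisensteinWeightOne CongruenceSubgroup ModularFormClass
open FLT FLT.AbstractIntegralStructure

namespace Fermat.Agent.S49

theorem result
    {N : ℕ} [NeZero N] (h : CuspForm.HasIntegralBasis N) {a : ℕ → ℤ}
    (heig : FormalHecke.IsEigensystem
      (fun ℓ => if ℓ ∣ N then 0 else ((chiNegThree ℓ : ℤ) : ℤ)) a)
    (hreal : CuspForm.IsLatticeRealized N a) :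
    ∃ (f : CuspForm (Gamma0 N) 2) (_ : f.IsNormalizedEigenform)
      (𝔪' : Ideal (integralClosure ℤ ℂ)), 𝔪'.IsMaximal ∧
      ((3 : ℕ) : integralClosure ℤ ℂ) ∈ 𝔪' ∧
      ∀ (ℓ : ℕ) (_ : ℓ.Prime) (_ : ¬ ℓ ∣ N),
        ∃ c : integralClosure ℤ ℂ, (c : ℂ) = ModularFormClass.qCoeff f ℓ ∧
          c - (a ℓ : integralClosure ℤ ℂ) ∈ 𝔪' := by
  classical
  obtain ⟨f₀, -, af, haf, hbridge⟩ := hreal
  -- `af ≡ a (mod 3)`
  have hcong : ∀ n, (3 : ℤ) ∣ af n - a n := fun n => by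
    have := dvd_add (hbridge n) (helper529.bridge_coeff_dvd a n)
    rwa [sub_add_sub_cancel] at this
  have hf₀L : f₀ ∈ CuspForm.intLattice N 2 :=
    (helper529.mem_intLattice_iff' f₀).2 fun n => ⟨af n, (haf n).symm⟩
  have h1 : ¬ (3 : ℤ) ∣ af 1 := by
    intro hd
    have h2 := hcong 1
    rw [heig.1] at h2
    have h3 : (3 : ℤ) ∣ 1 := by
      have := dvd_sub hd h2
      rwa [sub_sub_cancel] at this
    omega
  -- the lattice spans
  have hsub : CuspForm.qIntegralSet N ⊆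
      ((CuspForm.intLattice N 2 : Submodule ℤ (CuspForm (Gamma0 N) 2)) :
        Set (CuspForm (Gamma0 N) 2)) := by
    intro g hg
    rw [SetLike.mem_coe, helper529.mem_intLattice_iff']
    intro n
    obtain ⟨m, hm⟩ := Subring.mem_bot.1 (hg n)
    exact ⟨m, hm.symm⟩
  have hspan : Submodule.span ℂ
      ((CuspForm.intLattice N 2 : Submodule ℤ (CuspForm (Gamma0 N) 2)) :
        Set (CuspForm (Gamma0 N) 2)) = ⊤ := by
    rw [eq_top_iff, ← h]
    exact Submodule.span_mono hsub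
  have hfg := CuspForm.intLattice_fg N 2
  have hfin : FiniteDimensional ℂ (CuspForm (Gamma0 N) 2) := by
    obtain ⟨S, hS⟩ := hfg
    rw [← hS, Submodule.span_span_of_tower] at hspan
    exact Module.finite_def.2 ⟨S, hspan⟩
  -- apply the abstract lifting lemma
  obtain ⟨v, χ, 𝔪', hv0, hmax, hχ, hI⟩ := helper529.exists_eigen_lift
    (V := CuspForm (Gamma0 N) 2) (A := CuspForm.heckeAlgebra N 2 (∅ : Set ℕ))
    (CuspForm.heckeAlgebra N 2 (∅ : Set ℕ)).val.toRingHom Subtype.val_injective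
    (CuspForm.intLattice N 2) hfg hspan
    (fun t x hx => CuspForm.mem_intLattice_of_mem_heckeAlgebra one_le_two t.2 hx)
    (helper529.congIdeal f₀) (helper529.one_notMem_congIdeal haf h1)
  -- eigenvalues
  let c : ℕ → ℂ := fun ℓ =>
    if hℓ : ℓ.Prime then
      if hN : ℓ ∣ N then
        ((χ (CuspForm.heckeAlgebra.U hℓ hN (Set.notMem_empty ℓ)) : integralClosure ℤ ℂ) : ℂ)
      else ((χ (CuspForm.heckeAlgebra.T hℓ hN (Set.notMem_empty ℓ)) : integralClosure ℤ ℂ) : ℂ)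
    else 0
  have hT : ∀ (ℓ : ℕ) (hℓ : ℓ.Prime) (hℓN : ¬ ℓ ∣ N),
      CuspForm.heckeTLin 2 hℓ hℓN v = c ℓ • v := by
    intro ℓ hℓ hℓN
    have := hχ (CuspForm.heckeAlgebra.T hℓ hℓN (Set.notMem_empty ℓ))
    simp only [c, dif_pos hℓ, dif_neg hℓN]
    exact this
  have hU : ∀ (q : ℕ) (_ : q.Prime) (hqN : q ∣ N),
      CuspForm.heckeULin 2 hqN v = c q • v := by
    intro q hq hqN
    have := hχ (CuspForm.heckeAlgebra.U hq hqN (Set.notMem_empty q))
    simp only [c, dif_pos hq, dif_pos hqN]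
    exact this
  obtain ⟨f, hf, hfℓ⟩ := helper529.exists_normalized v hv0 c hT hU
  refine ⟨f, hf, 𝔪', hmax, ?_, fun ℓ hℓ hℓN => ?_⟩
  · have := hI _ (helper529.three_mem_congIdeal hf₀L)
    rwa [map_natCast] at this
  · refine ⟨χ (CuspForm.heckeAlgebra.T hℓ hℓN (Set.notMem_empty ℓ)), ?_, ?_⟩
    · rw [hfℓ ℓ hℓ]
      simp only [c, dif_pos hℓ, dif_neg hℓN]
    · have := hI _ (helper529.heckeT_sub_mem_congIdeal heig haf hcong hℓ hℓN)
      rwa [map_sub, map_intCast] at this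

end Fermat.Agent.S49
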