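-- S52 (3–5 switch).  Closing glue: `Fermat.Agent.S52.helper352.goal_S52`
-- (LOC: helper3451 generic-fibre route; DATA/LINK: helper135; top assembly: helper267 abc switch).
import Fermat.Statements.S52
import Fermat.Agent.S52.helper352_Close

set_option autoImplicit false
open WeierstrassCurve WeierstrassCurve.Affine WeierstrassCurve.Affine.Point
open CuspForm ModularFormClass UpperHalfPlane
open WeierstrassCurve

namespace Fermat.Agent.S52

theorem result (W : WeierstrassCurve ℤ) (hΔ : W.Δ ≠ 0) (hW : W.IsSemistableModel) (h5 : W.ModRepIsIrreducible 5) : ∃ W' : WeierstrassCurve ℤ, W'.Δ ≠ 0 ∧ W'.IsSemistableModel ∧ W'.ModRepIsIrreducible 3 ∧ ∀ ℓ : ℕ, ℓ.Prime → W.IsGoodPrimeFor ℓ → W'.IsGoodPrimeFor ℓ → ℓ ≠ 5 → (5 : ℤ) ∣ (W'.apOfModel ℓ - W.apOfModel ℓ) :=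
  Fermat.Agent.S52.helper352.goal_S52 W hΔ hW h5

end Fermat.Agent.S52
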