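import Fermat.Statements.S53
import Fermat.Agent.S53.helper53_Final
import Fermat.Agent.S53.helper653_Dict
import Fermat.Agent.S53.helper653_TypeEquiv
import Fermat.Agent.S53.helper1253_Slice
import Fermat.Agent.S53.helper759_NLiftMap
import Fermat.Agent.S53.helper189_FamLeNil
import Fermat.Agent.S53.helper1542_FamFin
import Fermat.Agent.S53.helper413_TanSpec
import Fermat.Agent.S53.helper1390_FamTop
import Fermat.Agent.S53.helper3281_FamInf
import Fermat.Agent.S53.helper2912_FamKerUp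
import Fermat.Agent.S53.helper3121_UnivLift
import Fermat.Agent.S53.helper1493_Asm
import Fermat.Agent.S53.helper1673_UnivRep
import Fermat.Agent.S53.helper2288_RingAdapter
import Fermat.Agent.S53.helper773_ProRep

set_option autoImplicit false
set_option autoImplicit false
open GaloisRep

namespace Fermat.Agent.S53

theorem result
    (𝒪 : Type) [CommRing 𝒪] [IsDomain 𝒪] [IsDiscreteValuationRing 𝒪]
    [IsAdicComplete (IsLocalRing.maximalIdeal 𝒪) 𝒪] [Finite (IsLocalRing.ResidueField 𝒪)]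
    (ρbar : ResidualGaloisRep (IsLocalRing.ResidueField 𝒪))
    (𝒟 : ∀ ⦃A : Type⦄ [CommRing A] [IsLocalRing A] [Algebra 𝒪 A], GaloisRepAdic A → Prop)
    (habs : ρbar.IsAbsolutelyIrreducible)
    (h𝒟 : GaloisRep.IsDeformationCondition 𝒪 𝒟)
    (hbar : 𝒟 (GaloisRepAdic.ofResidualGaloisRep ρbar))
    (hfin : GaloisRep.TangentFinite 𝒪 ρbar 𝒟) :
    Nonempty (GaloisRep.DeformationRingData 𝒪 ρbar 𝒟) := by
  have hBC := Fermat.Agent.S53.helper653.dictBaseChange
  have hMCM := Fermat.Agent.S53.helper653.matContMap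
  have hMCC := Fermat.Agent.S53.helper653.matContConj
  have hDE := Fermat.Agent.S53.helper653.dictEquiv
  have hDR := Fermat.Agent.S53.helper653.dictResidual 𝒪
  have hTE := Fermat.Agent.S53.helper653.typeEquiv 𝒪 𝒟 h𝒟
  have hSlice := Fermat.Agent.S53.helper1253.slice 𝒪
  have hRing : Fermat.Agent.S53.helper53.Stmt_Ring 𝒪 :=
    Fermat.Agent.S53.helper2288.stmt_ring_of_nonempty_proRep 𝒪
      Fermat.Agent.S53.helper773.nonempty_proRep
  refine Fermat.Agent.S53.helper53.final 𝒪 ρbar 𝒟 habs hDR hBC hMCM hMCC hDE hTE hSlice hRing ?_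
  intro b Sig hS
  have hMap := Fermat.Agent.S53.helper759.nLiftMap
    (Fermat.Agent.S53.helper53.matOfBasis ρbar b) Sig 𝒟 h𝒟 hBC hMCM
  have hLe := Fermat.Agent.S53.helper189.famLe (Fermat.Agent.S53.helper53.matOfBasis ρbar b) Sig 𝒟
  have hTanFin := Fermat.Agent.S53.helper413.tanFinite_of 𝒪 ρbar b Sig 𝒟 hS hDE hDR hfin
  exact
    { famLe := hLe
      famNil := Fermat.Agent.S53.helper189.famNil
        (Fermat.Agent.S53.helper53.matOfBasis ρbar b) Sig 𝒟
      famFin := Fermat.Agent.S53.helper1542.famFin 𝒪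
        (Fermat.Agent.S53.helper53.matOfBasis ρbar b) Sig 𝒟
      famInf := Fermat.Agent.S53.helper3281.famInf
        (Fermat.Agent.S53.helper53.matOfBasis ρbar b) Sig 𝒟 h𝒟 hLe hBC
      famUp := Fermat.Agent.S53.helper2912.famUp 𝒪
        (Fermat.Agent.S53.helper53.matOfBasis ρbar b) Sig 𝒟 hMap
      famTop := Fermat.Agent.S53.helper1390.famTop 𝒪 𝒟 h𝒟 ρbar b Sig hbar hS hBC
      famTan := Fermat.Agent.S53.helper413.famTan_of 𝒪
        (Fermat.Agent.S53.helper53.matOfBasis ρbar b) Sig 𝒟 hMap hTanFin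
      univRep := Fermat.Agent.S53.helper1673.univRep 𝒪
        (Fermat.Agent.S53.helper53.matOfBasis ρbar b) Sig 𝒟 h𝒟 hMap hBC
      univLift := Fermat.Agent.S53.helper3121.univLift
        (Fermat.Agent.S53.helper53.matOfBasis ρbar b) Sig 𝒟 h𝒟 hBC
        (Fermat.Agent.S53.helper2912.famKer 𝒪
          (Fermat.Agent.S53.helper53.matOfBasis ρbar b) Sig 𝒟 h𝒟 hBC)
      univUnique := Fermat.Agent.S53.helper1493.univUnique 𝒪
        (Fermat.Agent.S53.helper53.matOfBasis ρbar b) Sig 𝒟 }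

end Fermat.Agent.S53
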