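import Fermat.Statements.S54
import Fermat.Agent.Lib.helper54_Frobenius
-- import your own Fermat.Agent.* helpers here

set_option autoImplicit false
open GaloisRep GaloisRep.DeformationRingData

namespace Fermat.Agent.S54

open Polynomial in
/-- If `ρ₁` base-changed along `φ` is equivalent to `ρ₂`, the characteristic polynomials of
`ρ₂` are the images under `φ` of those of `ρ₁`. -/
theorem helper54_charpoly_eq_map {A B : Type} [CommRing A] [IsLocalRing A] [CommRing B]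
    [IsLocalRing B] (φ : A →+* B) (hφ : IsLocalHom φ) (ρ₁ : GaloisRepAdic A)
    (ρ₂ : GaloisRepAdic B) (h : (ρ₁.baseChangeAlong φ hφ).IsEquiv ρ₂)
    (σ : AlgebraicClosure ℚ ≃ₐ[ℚ] AlgebraicClosure ℚ) :
    LinearMap.charpoly (ρ₂.ρ σ) = (LinearMap.charpoly (ρ₁.ρ σ)).map φ := by
  obtain ⟨e⟩ := h
  let _ : Algebra A B := φ.toAlgebra
  have h1 : ρ₂.ρ σ = e.toLinearEquiv.conj ((ρ₁.baseChangeAlong φ hφ).ρ σ) := by
    apply LinearMap.ext
    intro x
    rw [LinearEquiv.conj_apply_apply, e.map_apply, LinearEquiv.apply_symm_apply]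
  rw [h1, LinearEquiv.charpoly_conj]
  exact LinearMap.charpoly_baseChange (A := B) (ρ₁.ρ σ)

theorem result {𝒪 : Type} [CommRing 𝒪] [IsDomain 𝒪] [IsDiscreteValuationRing 𝒪] [IsAdicComplete (IsLocalRing.maximalIdeal 𝒪) 𝒪] {ρbar : ResidualGaloisRep (IsLocalRing.ResidueField 𝒪)} {𝒟 : ∀ ⦃A : Type⦄ [CommRing A] [IsLocalRing A] [Algebra 𝒪 A], GaloisRepAdic A → Prop} (D : GaloisRep.DeformationRingData 𝒪 ρbar 𝒟) {N : ℕ} [NeZero N] {S : Set ℕ} {θ : CuspForm.heckeAlgebra N 2 S →+* IsLocalRing.ResidueField 𝒪} {T : Type} [CommRing T] [IsLocalRing T] [IsNoetherianRing T] [IsAdicComplete (IsLocalRing.maximalIdeal T) T] [Algebra 𝒪 T] [IsLocalHom (algebraMap 𝒪 T)] [Module.Finite 𝒪 T] [Module.Free 𝒪 T] (H : CuspForm.HeckeGaloisRepDatum N S 𝒪 θ T) (hS : ∀ q : ℕ, q.Prime → q ∣ N → q ∈ S) (h𝒟 : 𝒟 H.ρ) (hres : H.ρ.residual.IsEquiv (ρbar.baseChangeAlong (IsLocalRing.ResidueField.map (algebraMap 𝒪 T)))) : ∃ φ : D.R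 →ₐ[𝒪] T, Function.Surjective φ ∧ ∃ hφ : IsLocalHom (φ : D.R →+* T), (D.ρ.baseChangeAlong (φ : D.R →+* T) hφ).IsEquiv H.ρ := by
  obtain ⟨φ, ⟨hφ, hequiv⟩, -⟩ := D.universal T H.residue_surjective H.ρ h𝒟 hres
  refine ⟨φ, ?_, hφ, hequiv⟩
  -- the image of `φ` contains `π (T_ℓ)` for every good prime `ℓ`
  have hT : ∀ (ℓ : ℕ) (hℓ : ℓ.Prime) (hℓN : ¬ ℓ ∣ N) (hℓS : ℓ ∉ S),
      H.π (CuspForm.heckeAlgebra.T hℓ hℓN hℓS) ∈ φ.range := by
    intro ℓ hℓ hℓN hℓS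
    obtain ⟨A, σ, hA, hσ⟩ := Fermat.Agent.Lib.helper54.exists_liesOverPrime_isFrobeniusAt hℓ
    have h1 := H.charpoly_frob ℓ hℓ hℓN hℓS A hA σ hσ
    rw [helper54_charpoly_eq_map (φ : D.R →+* T) hφ D.ρ H.ρ hequiv σ] at h1
    have h2 := congrArg (fun p => Polynomial.coeff p 1) h1
    simp only [Polynomial.coeff_map, Polynomial.coeff_add, Polynomial.coeff_sub,
      Polynomial.coeff_X_pow, Polynomial.coeff_C_mul, Polynomial.coeff_X_one,
      Polynomial.coeff_C] at h2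
    norm_num at h2
    refine ⟨-(LinearMap.charpoly (D.ρ.ρ σ)).coeff 1, ?_⟩
    show φ (-(LinearMap.charpoly (D.ρ.ρ σ)).coeff 1) = _
    rw [map_neg, h2, neg_neg]
  -- hence it contains the image of `π`
  have hπ : ∀ t : CuspForm.heckeAlgebra N 2 S, H.π t ∈ φ.range := by
    rintro ⟨t, ht⟩
    induction ht using Algebra.adjoin_induction with
    | mem x hx =>
      rcases hx with ⟨ℓ, hℓ, hℓN, hℓS, rfl⟩ | ⟨q, hqN, hq, hqS, rfl⟩
      · exact hT ℓ hℓ hℓN hℓS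
      · exact absurd (hS q hq hqN) hqS
    | algebraMap m =>
      have h1 : (⟨algebraMap ℤ _ m, Subalgebra.algebraMap_mem _ m⟩ : CuspForm.heckeAlgebra N 2 S) =
          ((m : ℤ) : CuspForm.heckeAlgebra N 2 S) := by
        apply Subtype.ext
        simp
      rw [h1, map_intCast]
      exact ⟨(m : D.R), map_intCast φ m⟩
    | add x y hx hy ihx ihy =>
      have h1 : (⟨x + y, Subalgebra.add_mem _ hx hy⟩ : CuspForm.heckeAlgebra N 2 S) =
          ⟨x, hx⟩ + ⟨y, hy⟩ := rfl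
      rw [h1, map_add]
      exact Subalgebra.add_mem _ ihx ihy
    | mul x y hx hy ihx ihy =>
      have h1 : (⟨x * y, Subalgebra.mul_mem _ hx hy⟩ : CuspForm.heckeAlgebra N 2 S) =
          ⟨x, hx⟩ * ⟨y, hy⟩ := rfl
      rw [h1, map_mul]
      exact Subalgebra.mul_mem _ ihx ihy
  have htop : φ.range = ⊤ := by
    apply top_unique
    rw [← H.adjoin_range_π]
    refine Algebra.adjoin_le ?_
    rintro _ ⟨t, rfl⟩
    exact hπ t
  exact AlgHom.range_eq_top φ |>.mp htop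

end Fermat.Agent.S54
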