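-- Statement S57 (row 51): patching, descent step.  Proof by helper117.
-- The statement below is byte-identical to the frozen statement
-- Algebra.PatchingLevel.FermatFrozen.S57 (Fermat/Statements/S57.lean; the theorem
-- Algebra.PatchingLevel.free_and_ker_eq_span); that reserved name is not cited.
-- Route: `L.N` is a finite module over `Λ = 𝒪⟦X₁,…,X_r⟧` carrying the weakly regular sequence
-- `φ X₁, …, φ X_r, ϖ` of length `r + 1` inside the maximal ideal, and the maximal ideal of `Λ` is
-- generated by `r + 1` elements, hence `L.N` is free over `Λ` (helper117_Core, via the Rees theorem);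
-- then `M = N / (φ X_i) N` is free over `R` and `ker ψ = (φ X_i)` (helper117_Conclude).
import Fermat.Statements.S57
import Fermat.Agent.S57.helper117_Conclude
import Fermat.Agent.S57.helper117_Transport

set_option autoImplicit false
open Algebra Algebra.PatchingLevel

namespace Fermat.Agent.S57

theorem result
    {𝒪 : Type} [CommRing 𝒪] [IsDomain 𝒪] [IsDiscreteValuationRing 𝒪]
    {r : ℕ} {R : Type} [CommRing R] [Algebra 𝒪 R]
    {M : Type} [AddCommGroup M] [Module R M] [Nontrivial M]
    (L : Algebra.PatchingLevel 𝒪 r R M ⊥) :
    Module.Free R M ∧ Module.annihilator R M = ⊥ ∧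
      RingHom.ker L.ψ = Ideal.span (Set.range fun i : Fin r => L.φ (MvPowerSeries.X i)) := by
  exact Fermat.Agent.S57.helper117.conclusion_of_free L (Fermat.Agent.S57.helper117.free_N L)

end Fermat.Agent.S57
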